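import Mathlib

/-!
# S16 (L2)-LIFT, part III: the augmentation lemma and the integral correction of the parabolic
defect

* `exists_aug_decomp`: on a finite transitive `G`-set with `G = ⟨g₁, g₂⟩`, every function of
  sum zero is `(1 - g₁) a + (1 - g₂) b`;
* `defF`: the parabolic defect `F(m) = N_t (t m - s⁻¹ m)` of a normalized cocycle datum `m`;
* `exists_correction`: if `F(m₀) ≡ 0 mod n` with `n` prime to the order `w` of `t` on `X`, then
  `m₀` can be corrected modulo `n` to an integral `m` with `F(m) = 0`.  (helper59)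
-/

set_option autoImplicit false
set_option linter.unusedSectionVars false

namespace Fermat.Agent.S16.Lift59

section Aug

variable {G : Type*} [Group G] {X : Type*} [MulAction G X] {A : Type*} [AddCommGroup A]

/-- The subgroup `im (1 - g₁) + im (1 - g₂)` of `X → A`. -/
def augSub (g₁ g₂ : G) : AddSubgroup (X → A) where
  carrier := {v | ∃ a b : X → A, ∀ x, v x = (a x - a (g₁⁻¹ • x)) + (b x - b (g₂⁻¹ • x))}
  zero_mem' := ⟨0, 0, fun x => by simp⟩
  add_mem' := by
    rintro v v' ⟨a, b, h⟩ ⟨a', b', h'⟩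
    refine ⟨a + a', b + b', fun x => ?_⟩
    simp only [Pi.add_apply, h x, h' x]
    abel
  neg_mem' := by
    rintro v ⟨a, b, h⟩
    refine ⟨-a, -b, fun x => ?_⟩
    simp only [Pi.neg_apply, h x]
    abel

theorem sub_tw_mem_augSub {g₁ g₂ : G} (hgen : Subgroup.closure {g₁, g₂} = ⊤) (g : G)
    (v : X → A) : (fun x => v x - v (g⁻¹ • x)) ∈ augSub (A := A) (X := X) g₁ g₂ := by
  have hg : g ∈ Subgroup.closure {g₁, g₂} := by rw [hgen]; exact Subgroup.mem_top g
  induction hg using Subgroup.closure_induction generalizing v with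
  | mem y hy =>
    rcases hy with rfl | rfl
    · exact ⟨v, 0, fun x => by simp⟩
    · exact ⟨0, v, fun x => by simp⟩
  | one =>
    have : (fun x => v x - v ((1 : G)⁻¹ • x)) = 0 := by
      funext x; simp
    rw [this]
    exact (augSub g₁ g₂).zero_mem
  | mul a b _ _ iha ihb =>
    have : (fun x => v x - v ((a * b)⁻¹ • x))
        = (fun x => v x - v (b⁻¹ • x))
          + (fun x => (fun y => v (b⁻¹ • y)) x - (fun y => v (b⁻¹ • y)) (a⁻¹ • x)) := by
      funext x
      simp only [Pi.add_apply, mul_inv_rev, mul_smul]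
      abel
    rw [this]
    exact (augSub g₁ g₂).add_mem (ihb v) (iha _)
  | inv a _ iha =>
    have : (fun x => v x - v (a⁻¹⁻¹ • x))
        = - (fun x => (fun y => v (a • y)) x - (fun y => v (a • y)) (a⁻¹ • x)) := by
      funext x
      simp only [Pi.neg_apply, inv_inv, smul_inv_smul]
      abel
    rw [this]
    exact (augSub g₁ g₂).neg_mem (iha _)

/-- **Augmentation lemma**: a function of sum zero on a finite transitive `⟨g₁, g₂⟩`-set is
`(1 - g₁) a + (1 - g₂) b`. -/
theorem exists_aug_decomp [Fintype X] [MulAction.IsPretransitive G X] {g₁ g₂ : G}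
    (hgen : Subgroup.closure {g₁, g₂} = ⊤) (v : X → A) (hv : ∑ x, v x = 0) :
    ∃ a b : X → A, ∀ x, v x = (a x - a (g₁⁻¹ • x)) + (b x - b (g₂⁻¹ • x)) := by
  classical
  suffices h : v ∈ augSub (A := A) (X := X) g₁ g₂ from h
  rcases isEmpty_or_nonempty X with hX | ⟨⟨x₀⟩⟩
  · have : v = 0 := funext fun x => (hX.false x).elim
    rw [this]; exact (augSub g₁ g₂).zero_mem
  have hdecomp : v = ∑ x, ((Pi.single x (v x) : X → A) - Pi.single x₀ (v x)) := by
    funext y
    rw [Finset.sum_apply]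
    simp only [Pi.sub_apply, Finset.sum_sub_distrib]
    have h1 : ∑ x, (Pi.single x (v x) : X → A) y = v y := by
      simp [Pi.single_apply]
    have h2 : ∑ x, (Pi.single x₀ (v x) : X → A) y = 0 := by
      by_cases hy : y = x₀
      · subst hy
        simp [hv]
      · simp [Pi.single_apply, hy]
    rw [h1, h2, sub_zero]
  rw [hdecomp]
  apply AddSubgroup.sum_mem
  intro x _
  obtain ⟨g, rfl⟩ := MulAction.exists_smul_eq G x₀ x
  set c := v (g • x₀)
  have hsingle : (Pi.single (g • x₀) c : X → A)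
      = fun y => (Pi.single x₀ c : X → A) (g⁻¹ • y) := by
    funext y
    simp only [Pi.single_apply]
    by_cases h : y = g • x₀
    · simp [h]
    · have : g⁻¹ • y ≠ x₀ := fun h' => h (by rw [← h', smul_inv_smul])
      simp [h, this]
  have : ((Pi.single (g • x₀) c : X → A) - Pi.single x₀ c)
      = - (fun y => (Pi.single x₀ c : X → A) y - (Pi.single x₀ c : X → A) (g⁻¹ • y)) := by
    rw [hsingle]
    funext y
    simp only [Pi.sub_apply, Pi.neg_apply]
    abel
  rw [this]
  exact (augSub g₁ g₂).neg_mem (sub_tw_mem_augSub hgen g _)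

end Aug

section Defect

variable {G : Type*} [Group G] {X : Type*} [MulAction G X] {A : Type*} [AddCommGroup A]

/-- `E(m) = t m - s⁻¹ m`: the value at `t` of the normalized cocycle with datum `m`. -/
def defE (s t : G) (m : X → A) (y : X) : A := m (t⁻¹ • y) - m (s • y)

/-- `F(m) = N_t E(m)`: the value at `t ^ w` of the normalized cocycle with datum `m`. -/
def defF (s t : G) (w : ℕ) (m : X → A) (x : X) : A :=
  ∑ i ∈ Finset.range w, defE s t m ((t ^ i)⁻¹ • x)

theorem defF_map {B : Type*} [AddCommGroup B] (f : A →+ B) (s t : G) (w : ℕ) (m : X → A)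
    (x : X) : defF s t w (fun y => f (m y)) x = f (defF s t w m x) := by
  unfold defF defE
  rw [map_sum]
  apply Finset.sum_congr rfl
  intro i _
  rw [map_sub]

theorem defF_lin (s t : G) (w : ℕ) (m₁ m₂ : X → ℤ) (k₁ k₂ : ℤ) (x : X) :
    defF s t w (fun y => k₁ * m₁ y + k₂ * m₂ y) x
      = k₁ * defF s t w m₁ x + k₂ * defF s t w m₂ x := by
  unfold defF defE
  rw [Finset.mul_sum, Finset.mul_sum, ← Finset.sum_add_distrib]
  apply Finset.sum_congr rfl
  intro i _
  ring

theorem sum_defF_eq_zero [Fintype X] (s t : G) (w : ℕ) (m : X → A) :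
    ∑ x, defF s t w m x = 0 := by
  unfold defF
  rw [Finset.sum_comm]
  apply Finset.sum_eq_zero
  intro i _
  have h1 : ∑ x : X, defE s t m ((t ^ i)⁻¹ • x) = ∑ x : X, defE s t m x :=
    Equiv.sum_comp (MulAction.toPerm ((t ^ i)⁻¹)) (defE s t m)
  rw [h1]
  unfold defE
  rw [Finset.sum_sub_distrib]
  have h2 : ∑ x : X, m (t⁻¹ • x) = ∑ x : X, m x := Equiv.sum_comp (MulAction.toPerm t⁻¹) m
  have h3 : ∑ x : X, m (s • x) = ∑ x : X, m x := Equiv.sum_comp (MulAction.toPerm s) m
  rw [h2, h3, sub_self]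

theorem pow_inv_smul_of_period {t : G} {w : ℕ} (ht : ∀ x : X, t ^ w • x = x) (x : X) :
    (t ^ w)⁻¹ • x = x := by
  have := congrArg (fun y => (t ^ w)⁻¹ • y) (ht x)
  simpa using this.symm

theorem defF_tinv (s t : G) (w : ℕ) (ht : ∀ x : X, t ^ w • x = x) (m : X → A) (x : X) :
    defF s t w m (t⁻¹ • x) = defF s t w m x := by
  unfold defF
  have h1 : ∑ i ∈ Finset.range w, defE s t m ((t ^ i)⁻¹ • t⁻¹ • x)
      = ∑ i ∈ Finset.range w, defE s t m ((t ^ (i + 1))⁻¹ • x) := by
    apply Finset.sum_congr rfl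
    intro i _
    rw [pow_succ', mul_inv_rev, mul_smul]
  rw [h1]
  have h2 := Finset.sum_range_succ (fun i => defE s t m ((t ^ i)⁻¹ • x)) w
  have h3 := Finset.sum_range_succ' (fun i => defE s t m ((t ^ i)⁻¹ • x)) w
  rw [h2] at h3
  simp only [pow_zero, inv_one, one_smul] at h3
  rw [pow_inv_smul_of_period ht] at h3
  exact (add_right_cancel h3).symm

theorem sum_tw_t_eq_zero (t : G) (w : ℕ) (ht : ∀ x : X, t ^ w • x = x) (b : X → A) (x : X) :
    ∑ i ∈ Finset.range w, (b ((t ^ i)⁻¹ • x) - b (t⁻¹ • (t ^ i)⁻¹ • x)) = 0 := by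
  have h1 : ∑ i ∈ Finset.range w, (b ((t ^ i)⁻¹ • x) - b (t⁻¹ • (t ^ i)⁻¹ • x))
      = ∑ i ∈ Finset.range w, ((fun j => b ((t ^ j)⁻¹ • x)) i
          - (fun j => b ((t ^ j)⁻¹ • x)) (i + 1)) := by
    apply Finset.sum_congr rfl
    intro i _
    show _ = b ((t ^ i)⁻¹ • x) - b ((t ^ (i + 1))⁻¹ • x)
    rw [pow_succ, mul_inv_rev, mul_smul]
  rw [h1, Finset.sum_range_sub']
  simp only [pow_zero, inv_one, one_smul]
  rw [pow_inv_smul_of_period ht, sub_self]

theorem invariant_pow_inv {t : G} (ω : X → A) (hω : ∀ x, ω (t⁻¹ • x) = ω x) (i : ℕ) (x : X) :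
    ω ((t ^ i)⁻¹ • x) = ω x := by
  induction i with
  | zero => simp
  | succ i ih => rw [pow_succ, mul_inv_rev, mul_smul, hω, ih]

/-- **Integral correction**: if the parabolic defect of `m₀` vanishes modulo `n`, with `n` prime
to the order `w` of `t` on `X`, then `m₀` is congruent modulo `n` to a datum with no defect. -/
theorem exists_correction [Fintype X] [MulAction.IsPretransitive G X] (s t : G)
    (hgen : Subgroup.closure {s⁻¹, t} = ⊤) (w : ℕ) (ht : ∀ x : X, t ^ w • x = x)
    (n : ℕ) (hn : 0 < n) (hcop : Nat.Coprime n w) (m₀ : X → ℤ)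
    (hm₀ : ∀ x, (n : ℤ) ∣ defF s t w m₀ x) :
    ∃ m : X → ℤ, (∀ x, (n : ℤ) ∣ m x - m₀ x) ∧ ∀ x, defF s t w m x = 0 := by
  classical
  have hnz : (n : ℤ) ≠ 0 := by exact_mod_cast hn.ne'
  choose ω hω using hm₀
  -- `ω` has sum zero
  have hsum : ∑ x, ω x = 0 := by
    have h := sum_defF_eq_zero s t w m₀
    simp only [hω] at h
    rw [← Finset.mul_sum] at h
    exact (mul_eq_zero.mp h).resolve_left hnz
  -- `ω` is `t`-invariant
  have hinv : ∀ x, ω (t⁻¹ • x) = ω x := by
    intro x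
    have h := defF_tinv s t w ht m₀ x
    rw [hω, hω] at h
    exact mul_left_cancel₀ hnz h
  obtain ⟨a, b, hab⟩ := exists_aug_decomp hgen ω hsum
  -- `F(a) = w ω`
  have hFa : ∀ x, defF s t w a x = (w : ℤ) * ω x := by
    intro x
    unfold defF
    have h1 : ∀ i ∈ Finset.range w, defE s t a ((t ^ i)⁻¹ • x)
        = ω x - ((a + b) ((t ^ i)⁻¹ • x) - (a + b) (t⁻¹ • (t ^ i)⁻¹ • x)) := by
      intro i _
      have h := hab ((t ^ i)⁻¹ • x)
      rw [invariant_pow_inv ω hinv, inv_inv] at h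
      unfold defE
      rw [h]
      simp only [Pi.add_apply]
      ring
    rw [Finset.sum_congr rfl h1, Finset.sum_sub_distrib, sum_tw_t_eq_zero t w ht (a + b) x,
      sub_zero, Finset.sum_const, Finset.card_range, nsmul_eq_mul]
  obtain ⟨α, β, hαβ⟩ : IsCoprime (n : ℤ) (w : ℤ) := Nat.isCoprime_iff_coprime.mpr hcop
  refine ⟨fun x => (1 - n * α) * m₀ x + (-(n * β)) * a x, fun x => ⟨-(α * m₀ x + β * a x), ?_⟩,
    fun x => ?_⟩
  · ring
  · rw [defF_lin, hω, hFa]
    have : (1 - (n : ℤ) * α) * (n * ω x) + (-(n * β)) * (w * ω x)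
        = n * ω x * (1 - (α * n + β * w)) := by ring
    rw [this, hαβ, sub_self, mul_zero]

end Defect

end Fermat.Agent.S16.Lift59
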