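import Mathlib
import Fermat.Agent.S21.ParabolicDim

/-!
# S16 (L2)-LIFT, part II: cocycles `G → (X → A)` with values in an arbitrary abelian group

* `IsCoc`: the cocycle identity `c (g₁ g₂) x = c g₁ x + c g₂ (g₁⁻¹ x)`;
* uniqueness on generators, integrality on generators, functoriality;
* `exists_cob_of_cycle_sums`: a function whose sums along the closed `h`-cycles vanish is an
  `h`-coboundary;
* `exists_coc_eq_cob`: if `φ : H → A` kills every `r⁻¹ g^d r ∈ H` then the Shapiro cocycle of `φ`
  at `g` is a `g`-coboundary.  (helper59)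
-/

set_option autoImplicit false
set_option linter.unusedSectionVars false

namespace Fermat.Agent.S16.Lift59

open Fermat.Agent.S21.ParabolicDim

section Coc

variable {G : Type*} [Group G] {X : Type*} [MulAction G X] {A : Type*} [AddCommGroup A]

/-- `c : G → X → A` is a 1-cocycle for the left regular action `(g v) x = v (g⁻¹ x)`. -/
def IsCoc (c : G → X → A) : Prop :=
  ∀ (g₁ g₂ : G) (x : X), c (g₁ * g₂) x = c g₁ x + c g₂ (g₁⁻¹ • x)

/-- The coboundary of `v : X → A`. -/
def cob (v : X → A) (g : G) (x : X) : A := v (g⁻¹ • x) - v x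

theorem isCoc_cob (v : X → A) : IsCoc (cob (G := G) v) := by
  intro g₁ g₂ x
  unfold cob
  rw [mul_inv_rev, mul_smul]
  abel

namespace IsCoc

variable {c c' : G → X → A}

theorem one (hc : IsCoc c) (x : X) : c 1 x = 0 := by
  have h := hc 1 1 x
  rw [mul_one, inv_one, one_smul] at h
  have h2 : c 1 x + 0 = c 1 x + c 1 x := by rw [add_zero]; exact h
  exact (add_left_cancel h2).symm

theorem inv (hc : IsCoc c) (g : G) (x : X) : c g⁻¹ x = - c g (g • x) := by
  have h := hc g g⁻¹ (g • x)
  rw [mul_inv_cancel, hc.one, inv_smul_smul] at h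
  exact eq_neg_of_add_eq_zero_right h.symm

theorem add (hc : IsCoc c) (hc' : IsCoc c') : IsCoc (fun g x => c g x + c' g x) := by
  intro g₁ g₂ x
  show c (g₁ * g₂) x + c' (g₁ * g₂) x
    = (c g₁ x + c' g₁ x) + (c g₂ (g₁⁻¹ • x) + c' g₂ (g₁⁻¹ • x))
  rw [hc, hc']
  abel

theorem sub (hc : IsCoc c) (hc' : IsCoc c') : IsCoc (fun g x => c g x - c' g x) := by
  intro g₁ g₂ x
  show c (g₁ * g₂) x - c' (g₁ * g₂) x
    = (c g₁ x - c' g₁ x) + (c g₂ (g₁⁻¹ • x) - c' g₂ (g₁⁻¹ • x))
  rw [hc, hc']
  abel

theorem map {B : Type*} [AddCommGroup B] (hc : IsCoc c) (f : A →+ B) :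
    IsCoc (fun g x => f (c g x)) := by
  intro g₁ g₂ x
  show f (c (g₁ * g₂) x) = _
  rw [hc, map_add]

theorem pow (hc : IsCoc c) (g : G) (d : ℕ) (x : X) :
    c (g ^ d) x = ∑ i ∈ Finset.range d, c g ((g ^ i)⁻¹ • x) := by
  induction d generalizing x with
  | zero => simp [hc.one]
  | succ d ih =>
    rw [pow_succ', hc, ih, Finset.sum_range_succ']
    simp only [pow_zero, inv_one, one_smul]
    rw [add_comm]
    congr 1
    apply Finset.sum_congr rfl
    intro i _
    rw [pow_succ', mul_inv_rev, mul_smul]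

/-- Two cocycles agreeing on two generators agree. -/
theorem eq_of_closure (hc : IsCoc c) (hc' : IsCoc c') {s u : G}
    (hgen : Subgroup.closure {s, u} = ⊤) (hs : ∀ x, c s x = c' s x) (hu : ∀ x, c u x = c' u x)
    (g : G) (x : X) : c g x = c' g x := by
  have hg : g ∈ Subgroup.closure {s, u} := by rw [hgen]; exact Subgroup.mem_top g
  induction hg using Subgroup.closure_induction generalizing x with
  | mem y hy =>
    rcases hy with rfl | rfl
    · exact hs x
    · exact hu x
  | one => rw [hc.one, hc'.one]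
  | mul a b _ _ iha ihb => rw [hc, hc', iha, ihb]
  | inv a _ iha => rw [hc.inv, hc'.inv, iha]

/-- A cocycle with values in a subgroup on two generators has values in it everywhere. -/
theorem mem_of_closure (hc : IsCoc c) (K : AddSubgroup A) {s u : G}
    (hgen : Subgroup.closure {s, u} = ⊤) (hs : ∀ x, c s x ∈ K) (hu : ∀ x, c u x ∈ K)
    (g : G) (x : X) : c g x ∈ K := by
  have hg : g ∈ Subgroup.closure {s, u} := by rw [hgen]; exact Subgroup.mem_top g
  induction hg using Subgroup.closure_induction generalizing x with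
  | mem y hy =>
    rcases hy with rfl | rfl
    · exact hs x
    · exact hu x
  | one => rw [hc.one]; exact K.zero_mem
  | mul a b _ _ iha ihb => rw [hc]; exact K.add_mem (iha x) (ihb _)
  | inv a _ iha => rw [hc.inv]; exact K.neg_mem (iha _)

end IsCoc

/-- A function whose sums along all closed `h`-cycles vanish is an `h`-coboundary
(`h` of finite order on `X`). -/
theorem exists_cob_of_cycle_sums (h : G) (N : ℕ) (hN : 0 < N) (hper : ∀ x : X, h ^ N • x = x)
    (c : X → A)
    (hc : ∀ (x : X) (d : ℕ), 0 < d → h ^ d • x = x →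
      ∑ i ∈ Finset.range d, c (h ^ i • x) = 0) :
    ∃ b : X → A, ∀ x, b (h • x) - b x = c x := by
  classical
  -- a representative of the orbit of `x`
  let Ω := MulAction.orbitRel.Quotient (Subgroup.zpowers h) X
  let μ : X → X := fun x => Quotient.out (Quotient.mk'' x : Ω)
  have hμ_rel : ∀ x, ∃ j : ℕ, h ^ j • μ x = x := by
    intro x
    have h1 : (Quotient.mk'' (μ x) : Ω) = Quotient.mk'' x := Quotient.out_eq _
    have h2 : MulAction.orbitRel (Subgroup.zpowers h) X (μ x) x := Quotient.exact' h1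
    rw [MulAction.orbitRel_apply] at h2
    obtain ⟨⟨g, hg⟩, hgx⟩ := h2
    obtain ⟨e, rfl⟩ := Subgroup.mem_zpowers_iff.mp hg
    -- hgx : h^e • x = μ x ; so x = h^(-e) • μ x = h^((-e) mod N) • μ x
    refine ⟨((-e) % (N : ℤ)).toNat, ?_⟩
    have hNz : (N : ℤ) ≠ 0 := by exact_mod_cast hN.ne'
    have hnn : 0 ≤ (-e) % (N : ℤ) := Int.emod_nonneg _ hNz
    have hz : ∀ (q : ℤ) (y : X), h ^ ((N : ℤ) * q) • y = y := by
      intro q y
      rw [zpow_mul, zpow_natCast]
      have hfix : ∀ y : X, (h ^ N) • y = y := hper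
      have : ∀ q : ℤ, ∀ y : X, (h ^ N) ^ q • y = y := by
        intro q
        induction q using Int.induction_on with
        | zero => intro y; simp
        | succ i ih => intro y; rw [zpow_add_one, mul_smul, hfix, ih]
        | pred i ih =>
          intro y
          rw [zpow_sub_one, mul_smul, ih]
          have := hfix ((h ^ N)⁻¹ • y)
          rw [smul_inv_smul] at this
          exact this.symm
      exact this q y
    have hx : x = h ^ (-e) • μ x := by
      rw [← hgx]
      show x = h ^ (-e) • (h ^ e • x)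
      rw [← mul_smul, ← zpow_add, neg_add_cancel, zpow_zero, one_smul]
    have hdecomp : (-e) = (-e) % (N : ℤ) + (N : ℤ) * ((-e) / (N : ℤ)) :=
      (Int.emod_add_mul_ediv (-e) N).symm
    have : h ^ (((-e) % (N : ℤ)).toNat) • μ x = h ^ ((-e) % (N : ℤ)) • μ x := by
      rw [← zpow_natCast, Int.toNat_of_nonneg hnn]
    rw [this]
    conv_rhs => rw [hx, hdecomp, zpow_add, mul_smul, hz]
  have hμ_step : ∀ x, μ (h • x) = μ x := by
    intro x
    have : (Quotient.mk'' (h • x) : Ω) = Quotient.mk'' x := by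
      apply Quotient.sound'
      rw [MulAction.orbitRel_apply]
      exact ⟨⟨h, Subgroup.mem_zpowers h⟩, rfl⟩
    show Quotient.out (Quotient.mk'' (h • x) : Ω) = Quotient.out (Quotient.mk'' x : Ω)
    rw [this]
  let j : X → ℕ := fun x => Nat.find (hμ_rel x)
  have hj_spec : ∀ x, h ^ j x • μ x = x := fun x => Nat.find_spec (hμ_rel x)
  have hj_min : ∀ x (i : ℕ), h ^ i • μ x = x → j x ≤ i := fun x i hi => Nat.find_min' (hμ_rel x) hi
  refine ⟨fun x => ∑ i ∈ Finset.range (j x), c (h ^ i • μ x), ?_⟩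
  intro x
  show ∑ i ∈ Finset.range (j (h • x)), c (h ^ i • μ (h • x))
      - ∑ i ∈ Finset.range (j x), c (h ^ i • μ x) = c x
  rw [hμ_step x]
  have hstep : h ^ (j x + 1) • μ x = h • x := by
    rw [pow_succ', mul_smul, hj_spec]
  have hle : j (h • x) ≤ j x + 1 := hj_min (h • x) (j x + 1) (by rw [hμ_step]; exact hstep)
  by_cases hcase : j (h • x) = j x + 1
  · rw [hcase, Finset.sum_range_succ, hj_spec]
    abel
  · have hlt : j (h • x) ≤ j x := by omega
    have hzero : j (h • x) = 0 := by
      by_contra hne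
      obtain ⟨i, hi⟩ : ∃ i, j (h • x) = i + 1 := ⟨j (h • x) - 1, by omega⟩
      have hs := hj_spec (h • x)
      rw [hμ_step, hi, pow_succ', mul_smul] at hs
      have hs' : h ^ i • μ x = x := by
        have := congrArg (fun y => h⁻¹ • y) hs
        simpa using this
      have := hj_min x i hs'
      omega
    have hclosed : h ^ (j x + 1) • μ x = μ x := by
      rw [hstep]
      have hs := hj_spec (h • x)
      rw [hμ_step, hzero, pow_zero, one_smul] at hs
      exact hs.symm
    have hsum := hc (μ x) (j x + 1) (Nat.succ_pos _) hclosed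
    rw [Finset.sum_range_succ, hj_spec] at hsum
    rw [hzero, Finset.sum_range_zero, zero_sub]
    rw [eq_neg_of_add_eq_zero_left hsum, neg_neg]

end Coc

section ShapiroCoc

variable {G : Type*} [Group G] (H : Subgroup G) {A : Type*} [AddCommGroup A]

theorem isCoc_coc (φ : Additive H →+ A) : IsCoc (coc H φ) := fun g₁ g₂ x => coc_mul H φ g₁ g₂ x

/-- The value of the Shapiro cocycle at a point fixed by `g`. -/
theorem coc_of_fixed (φ : Additive H →+ A) (g : G) (x : G ⧸ H) (hfix : g • x = x)
    (hm : (rep H x)⁻¹ * (g * rep H x) ∈ H) :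
    coc H φ g x = φ (Additive.ofMul ⟨_, hm⟩) := by
  have hfix' : g⁻¹ • x = x := by
    have := congrArg (fun y => g⁻¹ • y) hfix
    simpa using this.symm
  have hElt : cocElt H g x = ⟨_, hm⟩ := by
    apply Subtype.ext
    simp only [cocElt, hfix']
  unfold coc
  rw [hElt]

theorem conj_mem_of_fixed (g : G) (x : G ⧸ H) (hfix : g • x = x) :
    (rep H x)⁻¹ * (g * rep H x) ∈ H := by
  have hfix' : g⁻¹ • x = x := by
    have := congrArg (fun y => g⁻¹ • y) hfix
    simpa using this.symm
  have := cocElt_mem H g x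
  rwa [hfix'] at this

/-- If `φ` kills every `r⁻¹ g^d r ∈ H`, the Shapiro cocycle of `φ` at `g` is a `g`-coboundary. -/
theorem exists_coc_eq_cob (φ : Additive H →+ A) (g : G) (N : ℕ) (hN : 0 < N)
    (hper : ∀ x : G ⧸ H, g ^ N • x = x)
    (hφ : ∀ (d : ℕ) (x : G ⧸ H) (hm : (rep H x)⁻¹ * (g ^ d * rep H x) ∈ H),
      φ (Additive.ofMul ⟨_, hm⟩) = 0) :
    ∃ b : G ⧸ H → A, ∀ x, coc H φ g x = cob b g x := by
  have hper' : ∀ x : G ⧸ H, g⁻¹ ^ N • x = x := by
    intro x
    rw [inv_pow]
    have := congrArg (fun y => (g ^ N)⁻¹ • y) (hper x)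
    simpa using this.symm
  obtain ⟨b, hb⟩ := exists_cob_of_cycle_sums (X := G ⧸ H) g⁻¹ N hN hper' (coc H φ g) (by
    intro x d hd hx
    have hx' : g ^ d • x = x := by
      rw [inv_pow] at hx
      have := congrArg (fun y => (g ^ d) • y) hx
      simpa using this.symm
    have hpow := (isCoc_coc H φ).pow g d x
    have hsum : ∑ i ∈ Finset.range d, coc H φ g (g⁻¹ ^ i • x)
        = ∑ i ∈ Finset.range d, coc H φ g ((g ^ i)⁻¹ • x) := by
      apply Finset.sum_congr rfl
      intro i _
      rw [inv_pow]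
    rw [hsum, ← hpow, coc_of_fixed H φ (g ^ d) x hx' (conj_mem_of_fixed H (g ^ d) x hx')]
    exact hφ d x _)
  exact ⟨b, fun x => (hb x).symm⟩

end ShapiroCoc

end Fermat.Agent.S16.Lift59
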