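import Mathlib
import Fermat.Agent.S21.ParabolicDim

/-!
# S16 (L2)-LIFT, part I: the Shapiro image of the parabolic classes fills the constraint space

helper52's bound `general_bound` (S21/ParabolicDim) is an inequality
`dim P + #orb(s) + #orb(u) + #orb(t) ≤ [G : H] + 2`.  When it is an *equality* every inequality
of its proof is an equality; in particular every pair `(a, b)` of the constraint space is the
Shapiro image of a class of `P` plus a coboundary.  (helper59)
-/

set_option autoImplicit false
set_option linter.unusedSectionVars false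
set_option linter.style.haveILetI false

namespace Fermat.Agent.S16.Lift59

open Module Fermat.Agent.S21.ParabolicDim

section GeneralSurj

variable (k : Type*) [Field k] [CharZero k] {G : Type*} [Group G] (H : Subgroup G)
  [H.FiniteIndex]

/-- Equality case of helper52's `general_bound`: if the dimension of `P` attains the bound, the
constraint space is spanned by the Shapiro images of `P` and the coboundaries. -/
theorem general_surj {s u t z : G} (hust : u = s * t) (hs2 : s ^ 2 = z) (hu3 : u ^ 3 = z)
    (hzH : z ∈ H) (hzc : ∀ g : G, g * z = z * g) (hgen : Subgroup.closure {s, u} = ⊤)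
    (P : Submodule k (Additive H →+ k))
    (hPz : ∀ φ ∈ P, φ (Additive.ofMul ⟨z, hzH⟩) = 0)
    (hPpar : ∀ φ ∈ P, ∀ (m : ℕ) (x : G ⧸ H) (hm : (rep H x)⁻¹ * (t ^ m * rep H x) ∈ H),
      φ (Additive.ofMul ⟨_, hm⟩) = 0)
    (n : ℕ) (hn : 0 < n) (htn : ∀ x : G ⧸ H, t ^ n • x = x)
    (hdim : H.index + 2 ≤ finrank k P
      + Nat.card (MulAction.orbitRel.Quotient (Subgroup.zpowers s) (G ⧸ H))
      + Nat.card (MulAction.orbitRel.Quotient (Subgroup.zpowers u) (G ⧸ H))
      + Nat.card (MulAction.orbitRel.Quotient (Subgroup.zpowers t) (G ⧸ H)))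
    (p : (G ⧸ H → k) × (G ⧸ H → k))
    (hp : p ∈ constraintSpace (act k s : Module.End k (G ⧸ H → k)) (act k u) (act k t) n) :
    ∃ φ ∈ P, ∃ v : G ⧸ H → k,
      p = (coc H φ s + (act k s v - v), coc H φ u + (act k u v - v)) := by
  classical
  haveI : Finite (G ⧸ H) := Subgroup.finite_quotient_of_finiteIndex
  set S : Module.End k (G ⧸ H → k) := act k s with hSdef
  set U : Module.End k (G ⧸ H → k) := act k u with hUdef
  set T : Module.End k (G ⧸ H → k) := act k t with hTdef
  have hzfix : ∀ x : G ⧸ H, z • x = x := central_fixes H hzH hzc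
  have hS : S ^ 2 = 1 := by
    rw [hSdef, ← act_pow, hs2]; exact act_eq_one_of_fixes k H hzfix
  have hU : U ^ 3 = 1 := by
    rw [hUdef, ← act_pow, hu3]; exact act_eq_one_of_fixes k H hzfix
  have hUST : U = S * T := by rw [hUdef, hust, act_mul]
  have hT : T ^ n = 1 := by
    rw [hTdef, ← act_pow]; exact act_eq_one_of_fixes k H htn
  have hSS : ∀ w : G ⧸ H → k, S (S w) = w := by
    intro w
    have := congrArg (fun f : Module.End k (G ⧸ H → k) => f w) hS
    simpa [pow_two, Module.End.mul_apply] using this
  set Ψ := shapiroMap k H s u with hΨdef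
  have hΨ : Function.Injective Ψ := shapiroMap_injective k H hgen
  set P' : Submodule k ((G ⧸ H → k) × (G ⧸ H → k)) := P.map Ψ with hP'def
  have hP' : P' ≤ constraintSpace S U T n := by
    rintro _ ⟨φ, hφ, rfl⟩
    have hcz : coc H φ z = 0 := coc_central k H φ hzH hzc (hPz φ hφ)
    refine ⟨⟨?_, ?_⟩, ?_⟩
    · show normOp S 2 (coc H φ s) = 0
      rw [hSdef, ← coc_pow, hs2, hcz]
    · show normOp U 3 (coc H φ u) = 0
      rw [hUdef, ← coc_pow, hu3, hcz]
    · show thetaMap S T n (coc H φ s, coc H φ u) = 0
      rw [thetaMap_apply]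
      have h1 : coc H φ u - coc H φ s = S (coc H φ t) := by
        rw [hust, coc_mul']; abel
      show normOp T n (S (coc H φ u - coc H φ s)) = 0
      rw [h1, hSS, hTdef, ← coc_pow]
      funext x
      have hfix : (t ^ n)⁻¹ • x = x := by
        have := htn ((t ^ n)⁻¹ • x); rw [smul_inv_smul] at this; exact this.symm
      have hm : (rep H x)⁻¹ * (t ^ n * rep H x) ∈ H := by
        have := cocElt_mem H (t ^ n) x
        rwa [hfix] at this
      have hElt : cocElt H (t ^ n) x = ⟨_, hm⟩ := by
        apply Subtype.ext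
        simp only [cocElt, hfix]
      show coc H φ (t ^ n) x = 0
      unfold coc
      rw [hElt]
      exact hPpar φ hφ n x hm
  have hdisj : Disjoint P' (LinearMap.range (cobMap S U)) := by
    rw [Submodule.disjoint_def]
    rintro _ ⟨φ, _, rfl⟩ ⟨v, hv⟩
    have hv1 : coc H φ s = act k s v - v := by
      have := congrArg Prod.fst hv
      rw [hΨdef, shapiroMap_apply] at this
      simpa [cobMap, hSdef] using this.symm
    have hv2 : coc H φ u = act k u v - v := by
      have := congrArg Prod.snd hv
      rw [hΨdef, shapiroMap_apply] at this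
      simpa [cobMap, hUdef] using this.symm
    have : φ = 0 := eq_zero_of_coc_eq_cob k H φ hgen v hv1 hv2
    rw [this, map_zero]
  have hB := range_cobMap_le S U T n hS hU hUST hT
  -- dimension count
  have h1 : finrank k ↥(P' ⊔ LinearMap.range (cobMap S U))
      = finrank k P' + finrank k (LinearMap.range (cobMap S U)) := by
    have h := Submodule.finrank_sup_add_finrank_inf_eq P' (LinearMap.range (cobMap S U))
    rw [hdisj.eq_bot, finrank_bot, add_zero] at h
    exact h
  have h2 := LinearMap.finrank_range_add_finrank_ker (cobMap S U)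
  have h3 : LinearMap.ker (cobMap S U) = LinearMap.ker (S - 1) ⊓ LinearMap.ker (U - 1) :=
    LinearMap.ker_prod _ _
  rw [h3] at h2
  have h4 := finrank_ker_normOp S (by norm_num : 0 < 2) hS
  have h5 := finrank_ker_normOp U (by norm_num : 0 < 3) hU
  have h6 := finrank_constraintSpace_le S U T n hn hS hU hT
  have e1 : finrank k P' = finrank k P :=
    (Submodule.equivMapOfInjective Ψ hΨ P).finrank_eq.symm
  have e2 : finrank k (LinearMap.ker (S - 1)) =
      Nat.card (MulAction.orbitRel.Quotient (Subgroup.zpowers s) (G ⧸ H)) :=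
    finrank_ker_act_sub_one k s
  have e3 : finrank k (LinearMap.ker (U - 1)) =
      Nat.card (MulAction.orbitRel.Quotient (Subgroup.zpowers u) (G ⧸ H)) :=
    finrank_ker_act_sub_one k u
  have e4 : finrank k (LinearMap.ker (T - 1)) =
      Nat.card (MulAction.orbitRel.Quotient (Subgroup.zpowers t) (G ⧸ H)) :=
    finrank_ker_act_sub_one k t
  have e5 : finrank k ↥(LinearMap.ker (S - 1) ⊓ LinearMap.ker (U - 1)) ≤ 1 :=
    finrank_inf_ker_le_one k hgen
  have e6 : Nat.card (G ⧸ H) ≤
      finrank k ↥(LinearMap.range (1 - S) ⊔ LinearMap.range (1 - U)) + 1 :=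
    card_le_finrank_sup_range_add_one k hgen
  have e7 : finrank k (G ⧸ H → k) = Nat.card (G ⧸ H) := by
    letI := Fintype.ofFinite (G ⧸ H)
    rw [Module.finrank_fintype_fun_eq_card, Nat.card_eq_fintype_card]
  have e8 : H.index = Nat.card (G ⧸ H) := rfl
  have hle : finrank k ↥(constraintSpace S U T n)
      ≤ finrank k ↥(P' ⊔ LinearMap.range (cobMap S U)) := by
    rw [h1]
    omega
  have heq : P' ⊔ LinearMap.range (cobMap S U) = constraintSpace S U T n :=
    Submodule.eq_of_le_of_finrank_le (sup_le hP' hB) hle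
  rw [← heq] at hp
  obtain ⟨q, ⟨φ, hφ, rfl⟩, r, ⟨v, rfl⟩, rfl⟩ := Submodule.mem_sup.mp hp
  refine ⟨φ, hφ, v, ?_⟩
  rw [hΨdef, shapiroMap_apply]
  rfl

end GeneralSurj

end Fermat.Agent.S16.Lift59
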