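import Mathlib
import Fermat.Agent.S16.Lift59.Surj
import Fermat.Agent.S16.Lift59.Cocycle
import Fermat.Agent.S16.Lift59.Aug

/-!
# S16 (L2)-LIFT, part IV: the general lifting theorem

`G = ⟨s, u⟩`, `u = s t`, `s² = u³ = z` central in the finite-index subgroup `H`; `P` a space of
characters `H → k` (`k` a field of characteristic `0`) killing `z` and the `t`-unipotents and
attaining helper52's dimension bound.  Then every character `χ : H → ZMod n` (`n` prime to the
order of `t` on `G ⧸ H`) killing the conjugates of powers of `s`, `u`, `t` lying in `H` is the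
reduction modulo `n` of an integral character whose extension of scalars lies in `P`.  (helper59)
-/

set_option autoImplicit false
set_option linter.unusedSectionVars false
set_option linter.style.haveILetI false

namespace Fermat.Agent.S16.Lift59

open Module Fermat.Agent.S21.ParabolicDim

section Normalized

variable {G : Type*} [Group G] {X : Type*} [MulAction G X] {A : Type*} [AddCommGroup A]

/-- The value at `t` of a normalized cocycle (`c s = 0`, `c u = (u - 1) m`). -/
theorem IsCoc.normalized_t {c : G → X → A} (hc : IsCoc c) {s u t : G} (hust : u = s * t)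
    (m : X → A) (hs : ∀ x, c s x = 0) (hu : ∀ x, c u x = cob m u x) (y : X) :
    c t y = defE s t m y := by
  subst hust
  have h1 := hc s t (s • y)
  rw [hs, zero_add, inv_smul_smul] at h1
  rw [← h1, hu]
  unfold cob defE
  rw [mul_inv_rev, mul_smul, inv_smul_smul]

/-- The value at `t ^ w` of a normalized cocycle. -/
theorem IsCoc.normalized_t_pow {c : G → X → A} (hc : IsCoc c) {s u t : G} (hust : u = s * t)
    (m : X → A) (hs : ∀ x, c s x = 0) (hu : ∀ x, c u x = cob m u x) (w : ℕ) (x : X) :
    c (t ^ w) x = defF s t w m x := by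
  rw [hc.pow]
  unfold defF
  apply Finset.sum_congr rfl
  intro i _
  exact hc.normalized_t hust m hs hu _

end Normalized

section Base

variable {G : Type*} [Group G] (H : Subgroup G) {A : Type*} [AddCommGroup A]

theorem smul_base (γ : H) : (γ : G)⁻¹ • (((1 : G) : G ⧸ H)) = ((1 : G) : G ⧸ H) := by
  show (((γ : G)⁻¹ * 1 : G) : G ⧸ H) = ((1 : G) : G ⧸ H)
  rw [QuotientGroup.eq]
  simp

/-- The Shapiro cocycle at the base coset recovers the character. -/
theorem coc_base (φ : Additive H →+ A) (γ : H) :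
    coc H φ (γ : G) (((1 : G) : G ⧸ H)) = φ (Additive.ofMul γ) := by
  set x₀ : G ⧸ H := ((1 : G) : G ⧸ H) with hx₀
  have hr₀ : rep H x₀ ∈ H := by
    have h := rep_spec H x₀
    rw [hx₀, QuotientGroup.eq] at h
    simpa using H.inv_mem h
  have hfix : (γ : G)⁻¹ • x₀ = x₀ := smul_base H γ
  have hElt : cocElt H (γ : G) x₀ = (⟨rep H x₀, hr₀⟩ : H)⁻¹ * γ * ⟨rep H x₀, hr₀⟩ := by
    apply Subtype.ext
    simp only [cocElt, hfix, Subgroup.coe_mul, Subgroup.coe_inv]
    group
  unfold coc
  rw [hElt, ofMul_mul, ofMul_mul, ofMul_inv, map_add, map_add, map_neg]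
  abel

end Base

section PermK

variable (k : Type*) [Field k] {G : Type*} [Group G] {X : Type*} [MulAction G X]

theorem normOp_act_apply (t : G) (w : ℕ) (v : X → k) (x : X) :
    normOp (act k t : Module.End k (X → k)) w v x
      = ∑ i ∈ Finset.range w, v ((t ^ i)⁻¹ • x) := by
  unfold normOp
  rw [LinearMap.sum_apply, Finset.sum_apply]
  apply Finset.sum_congr rfl
  intro i _
  rw [← act_pow]
  rfl

end PermK

section GeneralLift

variable (k : Type*) [Field k] [CharZero k] {G : Type*} [Group G] (H : Subgroup G)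
  [H.FiniteIndex]

/-- **General lifting theorem.** -/
theorem general_lift {s u t z : G} (hust : u = s * t) (hs2 : s ^ 2 = z) (hu3 : u ^ 3 = z)
    (hzH : z ∈ H) (hzc : ∀ g : G, g * z = z * g) (hgen : Subgroup.closure {s, u} = ⊤)
    (P : Submodule k (Additive H →+ k))
    (hPz : ∀ φ ∈ P, φ (Additive.ofMul ⟨z, hzH⟩) = 0)
    (hPpar : ∀ φ ∈ P, ∀ (m : ℕ) (x : G ⧸ H) (hm : (rep H x)⁻¹ * (t ^ m * rep H x) ∈ H),
      φ (Additive.ofMul ⟨_, hm⟩) = 0)
    (w : ℕ) (hw : 0 < w) (htw : ∀ x : G ⧸ H, t ^ w • x = x)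
    (hdim : H.index + 2 ≤ finrank k P
      + Nat.card (MulAction.orbitRel.Quotient (Subgroup.zpowers s) (G ⧸ H))
      + Nat.card (MulAction.orbitRel.Quotient (Subgroup.zpowers u) (G ⧸ H))
      + Nat.card (MulAction.orbitRel.Quotient (Subgroup.zpowers t) (G ⧸ H)))
    (n : ℕ) (hn : 0 < n) (hcop : Nat.Coprime n w)
    (χ : Additive H →+ ZMod n)
    (hχs : ∀ (d : ℕ) (x : G ⧸ H) (hm : (rep H x)⁻¹ * (s ^ d * rep H x) ∈ H),
      χ (Additive.ofMul ⟨_, hm⟩) = 0)
    (hχu : ∀ (d : ℕ) (x : G ⧸ H) (hm : (rep H x)⁻¹ * (u ^ d * rep H x) ∈ H),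
      χ (Additive.ofMul ⟨_, hm⟩) = 0)
    (hχt : ∀ (d : ℕ) (x : G ⧸ H) (hm : (rep H x)⁻¹ * (t ^ d * rep H x) ∈ H),
      χ (Additive.ofMul ⟨_, hm⟩) = 0) :
    ∃ ψ : Additive H →+ ℤ, (∃ φ ∈ P, ∀ a, φ a = ((ψ a : ℤ) : k)) ∧
      ∀ a, ((ψ a : ℤ) : ZMod n) = χ a := by
  classical
  haveI : Finite (G ⧸ H) := Subgroup.finite_quotient_of_finiteIndex
  letI : Fintype (G ⧸ H) := Fintype.ofFinite _
  haveI : NeZero n := ⟨hn.ne'⟩
  have hzfix : ∀ x : G ⧸ H, z • x = x := central_fixes H hzH hzc
  -- step 1: the restrictions to `⟨s⟩`, `⟨u⟩` are coboundaries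
  obtain ⟨abar, habar⟩ := exists_coc_eq_cob H χ s 2 (by norm_num)
    (by intro x; rw [hs2]; exact hzfix x) hχs
  obtain ⟨bbar, hbbar⟩ := exists_coc_eq_cob H χ u 3 (by norm_num)
    (by intro x; rw [hu3]; exact hzfix x) hχu
  set mbar : G ⧸ H → ZMod n := fun x => bbar x - abar x with hmbar
  -- step 2: the normalized cocycle modulo `n`
  set cbar : G → (G ⧸ H) → ZMod n := fun g x => coc H χ g x - cob abar g x with hcbardef
  have hcbar : IsCoc cbar := (isCoc_coc H χ).sub (isCoc_cob abar)
  have hcbar_s : ∀ x, cbar s x = 0 := fun x => by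
    show coc H χ s x - cob abar s x = 0
    rw [habar, sub_self]
  have hcbar_u : ∀ x, cbar u x = cob mbar u x := fun x => by
    show coc H χ u x - cob abar u x = _
    rw [hbbar]
    unfold cob
    simp only [hmbar]
    abel
  -- step 3: the parabolic defect vanishes modulo `n`
  have hFbar : ∀ x, defF s t w mbar x = 0 := by
    intro x
    rw [← hcbar.normalized_t_pow hust mbar hcbar_s hcbar_u w x]
    show coc H χ (t ^ w) x - cob abar (t ^ w) x = 0
    have hfix := htw x
    rw [coc_of_fixed H χ (t ^ w) x hfix (conj_mem_of_fixed H (t ^ w) x hfix), hχt w x _]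
    unfold cob
    rw [pow_inv_smul_of_period htw, sub_self, sub_zero]
  -- step 4: lift to `ℤ`
  set m₀ : G ⧸ H → ℤ := fun x => (mbar x).cast with hm₀def
  have hm₀ : ∀ x, ((m₀ x : ℤ) : ZMod n) = mbar x := fun x => ZMod.intCast_zmod_cast _
  have hdvd : ∀ x, (n : ℤ) ∣ defF s t w m₀ x := by
    intro x
    rw [← ZMod.intCast_zmod_eq_zero_iff_dvd]
    have h := defF_map (Int.castAddHom (ZMod n)) s t w m₀ x
    simp only [Int.coe_castAddHom] at h
    rw [← h]
    have : (fun y => ((m₀ y : ℤ) : ZMod n)) = mbar := funext hm₀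
    rw [this]
    exact hFbar x
  have hgen' : Subgroup.closure {s⁻¹, t} = ⊤ := by
    rw [eq_top_iff, ← hgen, Subgroup.closure_le]
    have hs' : s ∈ Subgroup.closure {s⁻¹, t} := by
      have : s⁻¹ ∈ Subgroup.closure {s⁻¹, t} := Subgroup.subset_closure (by simp)
      simpa using Subgroup.inv_mem _ this
    have ht' : t ∈ Subgroup.closure {s⁻¹, t} := Subgroup.subset_closure (by simp)
    intro g hg
    rcases hg with rfl | hg
    · exact hs'
    · rw [Set.mem_singleton_iff] at hg
      rw [hg, hust]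
      exact Subgroup.mul_mem _ hs' ht'
  -- step 5: correct the lift
  obtain ⟨m, hmcong, hFm⟩ :=
    exists_correction (X := G ⧸ H) s t hgen' w htw n hn hcop m₀ hdvd
  have hm : ∀ x, ((m x : ℤ) : ZMod n) = mbar x := by
    intro x
    rw [← hm₀ x]
    exact ((ZMod.intCast_eq_intCast_iff_dvd_sub (m₀ x) (m x) n).mpr (hmcong x)).symm
  -- step 6: the pair `(0, (u - 1) m)` lies in the constraint space over `k`
  set mk : G ⧸ H → k := fun x => ((m x : ℤ) : k) with hmkdef
  have hU : (act k u : Module.End k (G ⧸ H → k)) ^ 3 = 1 := by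
    rw [← act_pow, hu3]; exact act_eq_one_of_fixes k H hzfix
  have hsinv : ∀ y : G ⧸ H, s⁻¹ • y = s • y := by
    intro y
    have h : s • s • y = y := by rw [← mul_smul, ← pow_two, hs2]; exact hzfix y
    calc s⁻¹ • y = s⁻¹ • (s • s • y) := by rw [h]
      _ = s • y := by rw [inv_smul_smul]
  have husinv : ∀ y : G ⧸ H, u⁻¹ • s⁻¹ • y = t⁻¹ • y := by
    intro y
    rw [hsinv, hust, mul_inv_rev, mul_smul, inv_smul_smul]
  have hpair : ((0 : G ⧸ H → k), act k u mk - mk)
      ∈ constraintSpace (act k s : Module.End k (G ⧸ H → k)) (act k u) (act k t) w := by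
    refine ⟨⟨?_, ?_⟩, ?_⟩
    · show normOp (act k s : Module.End k (G ⧸ H → k)) 2 0 = 0
      rw [map_zero]
    · show normOp (act k u : Module.End k (G ⧸ H → k)) 3 (act k u mk - mk) = 0
      have : act k u mk - mk = ((act k u : Module.End k (G ⧸ H → k)) - 1) mk := by
        rw [LinearMap.sub_apply, Module.End.one_apply]
      rw [this, ← Module.End.mul_apply, normOp_mul_sub_one, hU, sub_self, LinearMap.zero_apply]
    · show thetaMap (act k s : Module.End k (G ⧸ H → k)) (act k t) w (0, act k u mk - mk) = 0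
      rw [thetaMap_apply]
      show normOp (act k t : Module.End k (G ⧸ H → k)) w
        (act k s ((act k u mk - mk) - 0)) = 0
      rw [sub_zero]
      funext x
      rw [normOp_act_apply]
      have hterm : ∀ y : G ⧸ H, act k s (act k u mk - mk) y = ((defE s t m y : ℤ) : k) := by
        intro y
        rw [act_apply, Pi.sub_apply, act_apply, husinv, hsinv]
        unfold defE
        rw [Int.cast_sub]
      simp only [hterm]
      rw [← Int.cast_sum]
      have := hFm x
      unfold defF at this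
      rw [this]
      simp
  -- step 7: surjectivity over `k`
  obtain ⟨φ, hφP, v, hφv⟩ := general_surj k H hust hs2 hu3 hzH hzc hgen P hPz hPpar w hw htw
    hdim _ hpair
  have hφs : ∀ x, coc H φ s x + cob v s x = 0 := by
    intro x
    have h := congrFun (congrArg Prod.fst hφv) x
    exact h.symm
  have hφu : ∀ x, coc H φ u x + cob v u x = cob mk u x := by
    intro x
    have h := congrFun (congrArg Prod.snd hφv) x
    exact h.symm
  -- step 8: the normalized cocycle over `k`
  set cc : G → (G ⧸ H) → k := fun g x => coc H φ g x + cob v g x with hccdef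
  have hcc : IsCoc cc := (isCoc_coc H φ).add (isCoc_cob v)
  -- step 9: integrality
  have hint : ∀ g x, cc g x ∈ (Int.castAddHom k).range := by
    apply hcc.mem_of_closure (Int.castAddHom k).range hgen
    · intro x
      have : cc s x = 0 := hφs x
      rw [this]
      exact (Int.castAddHom k).range.zero_mem
    · intro x
      have : cc u x = cob mk u x := hφu x
      rw [this]
      refine ⟨cob m u x, ?_⟩
      unfold cob
      simp [hmkdef]
  choose cZ hcZ using hint
  have hcZ' : ∀ g x, ((cZ g x : ℤ) : k) = cc g x := hcZ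
  have hcZcoc : IsCoc cZ := by
    intro g₁ g₂ x
    apply Int.cast_injective (α := k)
    rw [Int.cast_add, hcZ', hcZ', hcZ', hcc]
  have hcZs : ∀ x, cZ s x = 0 := fun x => Int.cast_injective (α := k) (by
    rw [hcZ', Int.cast_zero]; exact hφs x)
  have hcZu : ∀ x, cZ u x = cob m u x := fun x => Int.cast_injective (α := k) (by
    rw [hcZ']
    show coc H φ u x + cob v u x = _
    rw [hφu]
    unfold cob
    simp [hmkdef])
  -- step 10: comparison modulo `n`
  have hcmp : ∀ g x, ((cZ g x : ℤ) : ZMod n) = cbar g x := by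
    apply IsCoc.eq_of_closure (hcZcoc.map (Int.castAddHom (ZMod n))) hcbar hgen
    · intro x
      show ((cZ s x : ℤ) : ZMod n) = _
      rw [hcZs, hcbar_s, Int.cast_zero]
    · intro x
      show ((cZ u x : ℤ) : ZMod n) = _
      rw [hcZu, hcbar_u]
      unfold cob
      rw [Int.cast_sub, hm, hm]
  -- step 11: the integral character
  set x₀ : G ⧸ H := ((1 : G) : G ⧸ H) with hx₀
  let ψ : Additive H →+ ℤ :=
    { toFun := fun a => cZ ((Additive.toMul a : H) : G) x₀
      map_zero' := hcZcoc.one x₀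
      map_add' := fun a b => by
        show cZ (((Additive.toMul a * Additive.toMul b : H)) : G) x₀ = _
        rw [Subgroup.coe_mul, hcZcoc, smul_base] }
  refine ⟨ψ, ⟨φ, hφP, fun a => ?_⟩, fun a => ?_⟩
  · show φ a = ((cZ ((Additive.toMul a : H) : G) x₀ : ℤ) : k)
    rw [hcZ']
    show φ a = coc H φ ((Additive.toMul a : H) : G) x₀ + cob v ((Additive.toMul a : H) : G) x₀
    rw [coc_base]
    unfold cob
    rw [smul_base, sub_self, add_zero]
    rfl
  · show ((cZ ((Additive.toMul a : H) : G) x₀ : ℤ) : ZMod n) = χ a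
    rw [hcmp]
    show coc H χ ((Additive.toMul a : H) : G) x₀ - cob abar ((Additive.toMul a : H) : G) x₀ = χ a
    rw [coc_base]
    unfold cob
    rw [smul_base, sub_self, sub_zero]
    rfl

end GeneralLift

end Fermat.Agent.S16.Lift59
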