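import Mathlib
import Fermat.Agent.S16.Lift59
import Fermat.Agent.S16.Shimura18
import Fermat.Prelude.Def_ModularCurve_PeriodHomPair

/-!
# S16 (L2)-LIFT, adapters

* `exists_lift_periodHomPair`: the integral lift together with a preimage of its complexification
  under `periodHomPair N` (the shape consumed by `LowerCore26`);
* `exists_shimura_lift`: the same for helper18's Shimura class of `Γ₀(p)`.  (helper59)
-/

set_option autoImplicit false
set_option linter.unusedSectionVars false

namespace Fermat.Agent.S16.Lift59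

open scoped MatrixGroups
open ModularCurve ModularCurve.Period CongruenceSubgroup

/-- The integral lift, with a preimage of its complexification under `periodHomPair N`. -/
theorem exists_lift_periodHomPair (N : ℕ) [NeZero N] (n : ℕ) (hn : 0 < n)
    (hcop : Nat.Coprime n N) (χ : Additive (Gamma0 N) →+ ZMod n)
    (hpar : IsParabolicHom (Gamma0 N) χ)
    (hfin : ∀ γ : Gamma0 N, IsOfFinOrder γ → χ (Additive.ofMul γ) = 0) :
    ∃ (φ : Additive (Gamma0 N) →+ ℤ) (v : CuspForm (Gamma0 N) 2 × CuspForm (Gamma0 N) 2),
      IsParabolicHom (Gamma0 N) φ ∧ (∀ a, ((φ a : ℤ) : ZMod n) = χ a) ∧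
        periodHomPair N v = (Int.castAddHom ℂ).comp φ := by
  obtain ⟨ψ, hψ, hψχ⟩ := exists_integral_lift N n hn hcop χ hpar hfin
  have hmem : (Int.castAddHom ℂ).comp ψ ∈ parabolicHoms ℂ (Gamma0 N) ℂ := by
    rw [mem_parabolicHoms_iff]
    intro γ hγ
    show ((ψ (Additive.ofMul γ) : ℤ) : ℂ) = 0
    rw [hψ γ hγ, Int.cast_zero]
  rw [← (Fermat.Agent.S21.result N).2] at hmem
  obtain ⟨v, hv⟩ := hmem
  exact ⟨ψ, v, hψ, fun a => hψχ (Additive.toMul a), hv⟩

section Shimura

variable (p : ℕ) [hp : Fact p.Prime]

theorem eisensteinNumerator_pos : 0 < eisensteinNumerator p := by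
  have h2 := hp.out.two_le
  unfold eisensteinNumerator
  exact Nat.div_pos (Nat.le_of_dvd (by omega) (Nat.gcd_dvd_left _ _))
    (Nat.gcd_pos_of_pos_left _ (by omega))

theorem eisensteinNumerator_coprime : Nat.Coprime (eisensteinNumerator p) p := by
  have h2 := hp.out.two_le
  have h1 : Nat.Coprime (p - 1) p := by
    apply Nat.Coprime.symm
    rw [Nat.Prime.coprime_iff_not_dvd hp.out]
    exact Nat.not_dvd_of_pos_of_lt (by omega) (by omega)
  exact Nat.Coprime.coprime_dvd_left (eisensteinNumerator_dvd p) h1

/-- **The Shimura class lifts**: an integral parabolic character of `Γ₀(p)` reducing to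
helper18's Shimura class modulo `n = eisensteinNumerator p`, whose complexification is a period
character `periodHomPair p v`. -/
theorem exists_shimura_lift :
    haveI : NeZero p := ⟨hp.out.ne_zero⟩
    ∃ (φ : Additive (Gamma0 p) →+ ℤ) (v : CuspForm (Gamma0 p) 2 × CuspForm (Gamma0 p) 2),
      IsParabolicHom (Gamma0 p) φ ∧
      (∀ a, ((φ a : ℤ) : ZMod (eisensteinNumerator p)) = Shimura18.shimura p a) ∧
        periodHomPair p v = (Int.castAddHom ℂ).comp φ := by
  haveI : NeZero p := ⟨hp.out.ne_zero⟩
  exact exists_lift_periodHomPair p (eisensteinNumerator p) (eisensteinNumerator_pos p)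
    (eisensteinNumerator_coprime p) (Shimura18.shimura p) (Shimura18.isParabolicHom_shimura p)
    (Shimura18.shimura_eq_zero_of_isOfFinOrder p)

end Shimura

end Fermat.Agent.S16.Lift59
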